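import Fermat.Agent.H9.E6.Interfaces2

/-!
# E6-ALG (row 655, helper5): the residue field of `A` is integral over that of `A ∩ K₁`

`ι : K₁ → L` with `L` algebraic over `ι K₁`, `A` a valuation subring of `L`, `A₁ = A.comap ι`.
Every `ā = residue a` is a root of a nonzero polynomial over `k₁`: take `p ≠ 0` over `K₁` with
`p(a) = 0`, divide by a coefficient of maximal valuation, and reduce.
-/

set_option autoImplicit false

noncomputable section

namespace Fermat.Agent.H5.E6

open Polynomial Fermat.Agent.H9.E6

variable {K₁ L : Type} [Field K₁] [Field L]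

/-- In a valuation subring of a field, a nonzero polynomial can be scaled so that all its
coefficients are integral and one of them is `1`. -/
theorem exists_coeff_div_mem (A₁ : ValuationSubring K₁) (p : K₁[X]) (hp : p ≠ 0) :
    ∃ j : ℕ, p.coeff j ≠ 0 ∧ ∀ i : ℕ, p.coeff i / p.coeff j ∈ A₁ := by
  classical
  have hne : p.support.Nonempty := by
    rw [Finset.nonempty_iff_ne_empty, Ne, Polynomial.support_eq_empty]
    exact hp
  obtain ⟨j, hj, hmax⟩ := Finset.exists_max_image p.support
    (fun i => A₁.valuation (p.coeff i)) hne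
  have hcj : p.coeff j ≠ 0 := Polynomial.mem_support_iff.mp hj
  refine ⟨j, hcj, fun i => ?_⟩
  by_cases hi : p.coeff i = 0
  · rw [hi, zero_div]
    exact A₁.zero_mem
  · have hle : A₁.valuation (p.coeff i) ≤ A₁.valuation (p.coeff j) :=
      hmax i (Polynomial.mem_support_iff.mpr hi)
    rw [← ValuationSubring.valuation_le_one_iff, map_div₀]
    have hv : A₁.valuation (p.coeff j) ≠ 0 := (_root_.map_ne_zero _).mpr hcj
    exact (div_le_one₀ (zero_lt_iff.mpr hv)).mpr hle

/-- A root of a nonzero polynomial (through a ring homomorphism out of a field) is integral. -/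
theorem isIntegralElem_of_root {k₁ k : Type} [Field k₁] [CommRing k] (f : k₁ →+* k) (x : k)
    (p : k₁[X]) (hp : p ≠ 0) (hx : p.eval₂ f x = 0) : f.IsIntegralElem x := by
  refine ⟨p * C p.leadingCoeff⁻¹, Polynomial.monic_mul_leadingCoeff_inv hp, ?_⟩
  rw [Polynomial.eval₂_mul, hx, zero_mul]

/-- **E6-ALG**. -/
theorem resAlgebraic : ResAlgebraicStatement := by
  classical
  intro K₁ L _ _ ι halg A x
  obtain ⟨a, rfl⟩ := IsLocalRing.residue_surjective x
  obtain ⟨p, hp, hpa⟩ := halg (a : L)
  obtain ⟨j, hcj, hmem⟩ := exists_coeff_div_mem (A.comap ι) p hp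
  -- the scaled polynomial over `A₁`
  set p' : (↥(A.comap ι))[X] :=
    ∑ i ∈ p.support, Polynomial.monomial i (⟨p.coeff i / p.coeff j, hmem i⟩ : ↥(A.comap ι))
    with hp'
  have hcoeff : ∀ n : ℕ, ((p'.coeff n : ↥(A.comap ι)) : K₁) = p.coeff n / p.coeff j := by
    intro n
    rw [hp', Polynomial.finsetSum_coeff]
    simp only [Polynomial.coeff_monomial]
    rw [Finset.sum_ite_eq' p.support n]
    split_ifs with hn
    · rfl
    · rw [Polynomial.notMem_support_iff.mp hn, zero_div]
      rfl
  have hmap : p'.map (A.comap ι).subtype = C (p.coeff j)⁻¹ * p := by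
    ext n
    rw [Polynomial.coeff_map, Polynomial.coeff_C_mul]
    show ((p'.coeff n : ↥(A.comap ι)) : K₁) = _
    rw [hcoeff n, div_eq_inv_mul]
  have hcomp : A.subtype.comp (comapHom ι A) = ι.comp (A.comap ι).subtype := by
    ext y
    rfl
  -- its value at `a`
  have hval : p'.eval₂ (comapHom ι A) a = 0 := by
    apply Subtype.ext
    have h1 : A.subtype (p'.eval₂ (comapHom ι A) a) =
        p'.eval₂ (A.subtype.comp (comapHom ι A)) (A.subtype a) :=
      Polynomial.hom_eval₂ p' (comapHom ι A) A.subtype a
    rw [hcomp, ← Polynomial.eval₂_map, hmap, Polynomial.eval₂_mul] at h1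
    have h2 : Polynomial.eval₂ ι (A.subtype a) p = 0 := hpa
    rw [h2, mul_zero] at h1
    exact h1
  -- the reduced polynomial
  have hj1 : p'.coeff j = 1 := by
    apply Subtype.ext
    rw [hcoeff j, div_self hcj]
    rfl
  have hbar : p'.map (IsLocalRing.residue ↥(A.comap ι)) ≠ 0 := by
    intro h0
    have h1 := congrArg (fun r => Polynomial.coeff r j) h0
    simp only [Polynomial.coeff_map, Polynomial.coeff_zero] at h1
    rw [hj1, map_one] at h1
    exact one_ne_zero h1
  have hcomp2 : (resMap ι A).comp (IsLocalRing.residue ↥(A.comap ι)) =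
      (IsLocalRing.residue ↥A).comp (comapHom ι A) := by
    ext y
    exact resMap_residue ι A y
  refine isIntegralElem_of_root (resMap ι A) _ _ hbar ?_
  rw [Polynomial.eval₂_map, hcomp2, ← Polynomial.hom_eval₂, hval, map_zero]

end Fermat.Agent.H5.E6

end
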